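/-
Row S26, block SOFT, leaf INT (subtask 501; helper687): `Stmt.Integral K` — an abelian variety
over an algebraically closed field is integral.

* reduced: a scheme smooth over the spectrum of a domain is reduced (standard smooth = etale
  over a polynomial ring; etale over a domain is flat with reduced generic fibre);
* irreducible: the translations `transl G a` (built from the `RelativeGroupLaw` by Yoneda) act
  transitively on the closed points (= `K`-points); a noetherian connected Jacobson space with
  a transitive group of homeomorphisms on closed points is irreducible.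
-/
import Fermat.Agent.S26.SpecDeg

set_option autoImplicit false
universe u
open CategoryTheory CategoryTheory.Limits AlgebraicGeometry NeronModelInfra GoodReductionJacobian
open scoped TensorProduct

namespace Fermat.Agent.S26.H687

noncomputable section

/-! ## Reducedness -/

/-- An algebra that is etale over a domain is reduced. -/
theorem isReduced_of_etale_of_isDomain (P S : Type*) [CommRing P] [IsDomain P] [CommRing S]
    [Algebra P S] [Algebra.Etale P S] : IsReduced S := by
  have hinj : Function.Injective
      (Algebra.TensorProduct.includeRight (R := P) (A := FractionRing P) (B := S)) :=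
    Algebra.TensorProduct.includeRight_injective (IsFractionRing.injective P (FractionRing P))
  have : IsReduced (FractionRing P ⊗[P] S) :=
    Algebra.FormallyUnramified.isReduced_of_field (FractionRing P) (FractionRing P ⊗[P] S)
  exact isReduced_of_injective _ hinj

/-- A standard smooth algebra over a domain is reduced. -/
theorem isReduced_of_isStandardSmooth {R S : Type*} [CommRing R] [IsDomain R] [CommRing S]
    (f : R →+* S) (hf : f.IsStandardSmooth) : IsReduced S := by
  obtain ⟨n, g, -, hg⟩ := hf.exists_etale_mvPolynomial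
  algebraize [g]
  exact isReduced_of_etale_of_isDomain (MvPolynomial (Fin n) R) S

/-- A scheme that is smooth over the spectrum of a domain is reduced. -/
theorem isReduced_of_smooth {X : Scheme.{u}} {R : CommRingCat.{u}} [IsDomain R]
    (f : X ⟶ Spec R) [Smooth f] : AlgebraicGeometry.IsReduced X := by
  have (x : X) : _root_.IsReduced (X.presheaf.stalk x) := by
    obtain ⟨U, hU, V, hV, hxV, e, h⟩ := Smooth.exists_isStandardSmooth f x
    have : Nonempty U := ⟨⟨f x, e hxV⟩⟩
    have : _root_.IsReduced Γ(X, V) := isReduced_of_isStandardSmooth _ h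
    let := X.presheaf.algebra_section_stalk ⟨x, hxV⟩
    have := hV.isLocalization_stalk ⟨x, hxV⟩
    exact isReduced_localizationPreserves (hV.primeIdealOf ⟨x, hxV⟩).asIdeal.primeCompl _
      inferInstance
  exact isReduced_of_isReduced_stalk X

/-! ## Homogeneous spaces -/

/-- The preimage of an irreducible component under a homeomorphism is an irreducible
component. -/
theorem preimage_mem_irreducibleComponents {X : Type*} [TopologicalSpace X] (φ : X ≃ₜ X)
    {Z : Set X} (hZ : Z ∈ irreducibleComponents X) : φ ⁻¹' Z ∈ irreducibleComponents X := by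
  refine ⟨?_, fun W hW hle => ?_⟩
  · rw [← φ.image_symm]
    exact hZ.1.image _ φ.symm.continuous.continuousOn
  · have h1 : Z ⊆ φ '' W := by
      rw [← φ.image_preimage Z]
      exact Set.image_mono hle
    have h2 : φ '' W ⊆ Z := hZ.2 (hW.image _ φ.continuous.continuousOn) h1
    intro w hw
    exact h2 ⟨w, hw, rfl⟩

/-- A noetherian, connected Jacobson space on whose closed points a group of homeomorphisms
acts transitively is irreducible. -/
theorem irreducibleSpace_of_homogeneous {X : Type*} [TopologicalSpace X]
    [TopologicalSpace.NoetherianSpace X] [ConnectedSpace X] [JacobsonSpace X]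
    (h : ∀ x y : X, IsClosed {x} → IsClosed {y} → ∃ φ : X ≃ₜ X, φ x = y) :
    IrreducibleSpace X := by
  classical
  have hfin : (irreducibleComponents X).Finite :=
    TopologicalSpace.NoetherianSpace.finite_irreducibleComponents
  obtain ⟨x₀⟩ := (inferInstance : Nonempty X)
  set Z₁ := irreducibleComponent x₀ with hZ₁def
  have hZ₁ : Z₁ ∈ irreducibleComponents X := irreducibleComponent_mem_irreducibleComponents x₀
  set T := ⋃₀ (irreducibleComponents X \ {Z₁}) with hTdef
  have hT : IsClosed T := by
    rw [hTdef, Set.sUnion_eq_biUnion]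
    exact (hfin.subset Set.sdiff_subset).isClosed_biUnion
      fun Z hZ => isClosed_of_mem_irreducibleComponents Z hZ.1
  have hU : (Tᶜ).Nonempty := by
    by_contra hne
    rw [Set.not_nonempty_iff_eq_empty, Set.compl_empty_iff] at hne
    have := mem_of_subset_sUnion_irreducibleComponents Z₁ hZ₁ _ (hfin.subset Set.sdiff_subset)
      Set.sdiff_subset (hne ▸ Set.subset_univ _)
    exact this.2 rfl
  obtain ⟨y, hyU, hyc⟩ := nonempty_inter_closedPoints hU hT.isOpen_compl.isLocallyClosed
  have hy : ∀ Z ∈ irreducibleComponents X, y ∈ Z → Z = Z₁ := by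
    intro Z hZ hyZ
    by_contra hne
    exact hyU (Set.mem_sUnion.2 ⟨Z, ⟨hZ, hne⟩, hyZ⟩)
  have hx : ∀ x, IsClosed {x} → ∀ Z ∈ irreducibleComponents X,
      ∀ Z' ∈ irreducibleComponents X, x ∈ Z → x ∈ Z' → Z = Z' := by
    intro x hxc Z hZ Z' hZ' hxZ hxZ'
    obtain ⟨φ, hφ⟩ := h y x hyc hxc
    have e1 := hy _ (preimage_mem_irreducibleComponents φ hZ) (by simpa [hφ] using hxZ)
    have e2 := hy _ (preimage_mem_irreducibleComponents φ hZ') (by simpa [hφ] using hxZ')
    exact φ.surjective.preimage_injective (e1.trans e2.symm)
  have hdisj : ∀ Z ∈ irreducibleComponents X, ∀ Z' ∈ irreducibleComponents X,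
      Z ≠ Z' → Disjoint Z Z' := by
    intro Z hZ Z' hZ' hne
    rw [Set.disjoint_iff_inter_eq_empty]
    by_contra hne'
    obtain ⟨x, ⟨hxZ, hxZ'⟩, hxc⟩ := nonempty_inter_closedPoints
      (Set.nonempty_iff_ne_empty.2 hne')
      ((isClosed_of_mem_irreducibleComponents Z hZ).inter
        (isClosed_of_mem_irreducibleComponents Z' hZ')).isLocallyClosed
    exact hne (hx x hxc Z hZ Z' hZ' hxZ hxZ')
  have hcompl : Z₁ᶜ = T := by
    ext p
    constructor
    · intro hp
      have hp' : p ∈ ⋃₀ irreducibleComponents X := by
        rw [sUnion_irreducibleComponents]; exact Set.mem_univ p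
      obtain ⟨Z, hZ, hpZ⟩ := Set.mem_sUnion.1 hp'
      exact ⟨Z, ⟨hZ, fun e => hp (e ▸ hpZ)⟩, hpZ⟩
    · rintro ⟨Z, ⟨hZ, hne⟩, hpZ⟩ hpZ₁
      exact (Set.disjoint_left.1 (hdisj Z hZ Z₁ hZ₁ hne)) hpZ hpZ₁
  have hclopen : IsClopen Z₁ :=
    ⟨isClosed_of_mem_irreducibleComponents Z₁ hZ₁, by rw [← isClosed_compl_iff, hcompl]; exact hT⟩
  rcases isClopen_iff.1 hclopen with h0 | h1
  · exact absurd h0 (Set.Nonempty.ne_empty ⟨x₀, mem_irreducibleComponent⟩)
  · have h2 : IsIrreducible (Set.univ : Set X) := by
      rw [← h1]; exact hZ₁.1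
    exact (irreducibleSpace_def X).2 h2

/-! ## Translations of a relative group law -/

section Transl

variable {R : Type u} [CommRing R] {A : Scheme.{u}} {f : A ⟶ Spec (CommRingCat.of R)}
  (G : RelativeGroupLaw R f)

/-- The constant `T`-point with value the section `a`. -/
def constPt {T : Scheme.{u}} (t : T ⟶ Spec (CommRingCat.of R))
    (a : SchemeHomOver (𝟙 (Spec (CommRingCat.of R))) f) : SchemeHomOver t f :=
  schemeHomOverComp t (Category.comp_id t) a

theorem constPt_id (a : SchemeHomOver (𝟙 (Spec (CommRingCat.of R))) f) :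
    constPt (𝟙 _) a = a :=
  Subtype.ext (Category.id_comp _)

theorem schemeHomOverComp_constPt {T T' : Scheme.{u}} (t : T ⟶ Spec (CommRingCat.of R))
    (t' : T' ⟶ Spec (CommRingCat.of R)) (ψ : T' ⟶ T) (hψ : ψ ≫ t = t')
    (a : SchemeHomOver (𝟙 (Spec (CommRingCat.of R))) f) :
    schemeHomOverComp ψ hψ (constPt t a) = constPt t' a :=
  Subtype.ext (by simp [constPt, ← hψ])

theorem constPt_mul {T : Scheme.{u}} (t : T ⟶ Spec (CommRingCat.of R))
    (a b : SchemeHomOver (𝟙 (Spec (CommRingCat.of R))) f) :
    constPt t (G.mul (𝟙 _) a b) = G.mul t (constPt t a) (constPt t b) :=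
  G.mul_natural (𝟙 _) t t (Category.comp_id t) a b

theorem constPt_one {T : Scheme.{u}} (t : T ⟶ Spec (CommRingCat.of R)) :
    constPt t (G.one (𝟙 _)) = G.one t :=
  G.one_natural (𝟙 _) t t (Category.comp_id t)

/-- Translation by the section `a`, as a morphism `A ⟶ A`. -/
def transl (a : SchemeHomOver (𝟙 (Spec (CommRingCat.of R))) f) : A ⟶ A :=
  (G.mul f RelativeGroupLaw.idPoint (constPt f a)).1

theorem transl_over (a : SchemeHomOver (𝟙 (Spec (CommRingCat.of R))) f) :
    transl G a ≫ f = f :=
  (G.mul f RelativeGroupLaw.idPoint (constPt f a)).2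

/-- Translation on `T`-valued points. -/
theorem comp_transl {T : Scheme.{u}} (t : T ⟶ Spec (CommRingCat.of R)) (x : SchemeHomOver t f)
    (a : SchemeHomOver (𝟙 (Spec (CommRingCat.of R))) f) :
    x.1 ≫ transl G a = (G.mul t x (constPt t a)).1 := by
  have h := G.mul_natural f t x.1 x.2 RelativeGroupLaw.idPoint (constPt f a)
  have h1 : schemeHomOverComp x.1 x.2 (RelativeGroupLaw.idPoint (f := f)) = x :=
    Subtype.ext (Category.comp_id _)
  rw [h1, schemeHomOverComp_constPt] at h
  exact congrArg Subtype.val h

theorem transl_comp (a b : SchemeHomOver (𝟙 (Spec (CommRingCat.of R))) f) :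
    transl G a ≫ transl G b = transl G (G.mul (𝟙 _) a b) := by
  have h := comp_transl G f (G.mul f RelativeGroupLaw.idPoint (constPt f a)) b
  rw [G.mul_assoc, ← constPt_mul] at h
  exact h

theorem transl_one : transl G (G.one (𝟙 _)) = 𝟙 A := by
  unfold transl
  rw [constPt_one, G.mul_one]

/-- Translation by `a` as an automorphism of `A`. -/
def translIso (a : SchemeHomOver (𝟙 (Spec (CommRingCat.of R))) f) : A ≅ A where
  hom := transl G a
  inv := transl G (G.inv (𝟙 _) a)
  hom_inv_id := by rw [transl_comp, G.mul_inv_cancel, transl_one]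
  inv_hom_id := by rw [transl_comp, G.inv_mul_cancel, transl_one]

/-- Translation on sections. -/
theorem pt_comp_transl (b a : SchemeHomOver (𝟙 (Spec (CommRingCat.of R))) f) :
    b.1 ≫ transl G a = (G.mul (𝟙 _) b a).1 := by
  rw [comp_transl, constPt_id]

/-- The translations act transitively on sections. -/
theorem exists_translIso (b c : SchemeHomOver (𝟙 (Spec (CommRingCat.of R))) f) :
    ∃ a : SchemeHomOver (𝟙 (Spec (CommRingCat.of R))) f, b.1 ≫ (translIso G a).hom = c.1 := by
  refine ⟨G.mul (𝟙 _) (G.inv (𝟙 _) b) c, ?_⟩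
  show b.1 ≫ transl G _ = c.1
  rw [pt_comp_transl, ← G.mul_assoc, G.mul_inv_cancel, G.one_mul]

end Transl

/-! ## Abelian varieties are integral -/

section Main

variable {K : Type u} [Field K] [IsAlgClosed K]

/-- A connected scheme, smooth and of finite type over an algebraically closed field, with a
group law on its functor of points, is integral. -/
theorem isIntegral_of_groupLaw {A : Scheme.{u}} (f : A ⟶ Spec (CommRingCat.of K)) [Smooth f]
    [QuasiCompact f] [ConnectedSpace A] (G : RelativeGroupLaw K f) : IsIntegral A := by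
  have hred : AlgebraicGeometry.IsReduced A := isReduced_of_smooth f
  have : JacobsonSpace A := LocallyOfFiniteType.jacobsonSpace f
  have : CompactSpace A := QuasiCompact.compactSpace_of_compactSpace f
  have : IsNoetherian A := { __ := LocallyOfFiniteType.isLocallyNoetherian f }
  have : IrreducibleSpace A := by
    refine irreducibleSpace_of_homogeneous fun x y hx hy => ?_
    let px := (pointEquivClosedPoint f).symm ⟨x, hx⟩
    let py := (pointEquivClosedPoint f).symm ⟨y, hy⟩
    have hpx : px.1 (IsLocalRing.closedPoint K) = x :=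
      congrArg Subtype.val ((pointEquivClosedPoint f).apply_symm_apply ⟨x, hx⟩)
    have hpy : py.1 (IsLocalRing.closedPoint K) = y :=
      congrArg Subtype.val ((pointEquivClosedPoint f).apply_symm_apply ⟨y, hy⟩)
    obtain ⟨a, ha⟩ := exists_translIso G px py
    refine ⟨Scheme.homeoOfIso (translIso G a), ?_⟩
    rw [Scheme.homeoOfIso_apply, ← hpx, ← Scheme.Hom.comp_apply, ha, hpy]
  exact isIntegral_of_irreducibleSpace_of_isReduced A

/-- **SOFT S2 / INT**: an abelian variety over an algebraically closed field is integral. -/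
theorem integral (K : Type u) [Field K] [IsAlgClosed K] : Stmt.Integral K := by
  intro X
  have : Smooth X.str := X.bundle.smooth
  have : IsProper X.str := X.bundle.proper
  have hconn : _root_.IsConnected (Set.univ : Set X.A) := by
    have h := X.bundle.connectedFibres (IsLocalRing.closedPoint K)
    convert h using 1
    exact (Set.eq_univ_of_forall fun a => Subsingleton.elim _ _).symm
  have : ConnectedSpace X.A := connectedSpace_iff_univ.mpr hconn
  exact isIntegral_of_groupLaw X.str X.law

end Main

end

end Fermat.Agent.S26.H687
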