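/-
Row S26, block CUBE, leaf C1 (subtask 543; helper687): the cube for a curve.

* `S25Statement` : the statement of row S25 (existence of the Jacobian), as a `Prop`
  (to be fed with `Fermat.Agent.S25.result`).
* `ModDict T`    : DICT26, the dictionary between the classes of a Picard theory `T` and
  invertible sheaves of modules (to be provided by block PIC for its model).
* `trivial_of_trivial_on_axes` : C1 in the language of rigidified line bundles: a rigidified
  line bundle on `C × (Y × Z)` which is trivial on `C × (y₀ × Z)` and on `C × (Y × z₀)` is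
  trivial (classifying map to the Jacobian + rigidity lemma).
* `curveCube` : `S25Statement → ModDict T → Stmt.CurveCube T K`.
-/
import Fermat.Agent.S26.SpecCube
import Fermat.Agent.S26.H686.Rigidity
import Fermat.Agent.S25.H687.DDFormal
import Fermat.Agent.S25.H567.GeomIntegral

set_option autoImplicit false
universe u
open CategoryTheory CategoryTheory.Limits AlgebraicGeometry AlgebraicGeometry.RelPicard
  NeronModelInfra GoodReductionJacobian

namespace Fermat.Agent.S26.H687

noncomputable section

/-- The statement of row S25: the degree-zero relative Picard functor of a smooth proper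
integral pointed curve over an algebraically closed field is representable by a smooth, proper,
geometrically connected scheme. -/
def S25Statement : Prop :=
  ∀ (k : Type u) [Field k] [IsAlgClosed k] {C : Scheme.{u}} (c : C ⟶ Spec (CommRingCat.of k))
    [IsProper c] [SmoothOfRelativeDimension 1 c] [IsIntegral C]
    (ε : SchemeHomOver (𝟙 (Spec (CommRingCat.of k))) c),
    ∃ D : RelativePic0Designation k c,
      Nonempty (RepresentsRelSubPic c ε (algEquivZeroCut c ε) D) ∧
        Smooth D.toBase ∧ IsProper D.toBase ∧ GeometricallyConnected D.toBase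

/-- DICT26: a dictionary between the classes of a Picard theory and invertible sheaves of
modules.  `Rep c L` : "the invertible module `L` represents the class `c`". -/
structure ModDict (T : PicTheory.{u}) where
  /-- `L` represents the class `c` -/
  Rep : ∀ {X : Scheme.{u}}, T.Pic X → X.Modules → Prop
  exists_rep : ∀ {X : Scheme.{u}} (c : T.Pic X),
    ∃ L : X.Modules, Scheme.Modules.IsInvertible L ∧ Rep c L
  rep_zero_iff : ∀ {X : Scheme.{u}} (c : T.Pic X) (L : X.Modules), Rep c L →
    (c = 0 ↔ Nonempty (L ≅ SheafOfModules.unit X.ringCatSheaf))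
  rep_pullback : ∀ {X Y : Scheme.{u}} (f : X ⟶ Y) (c : T.Pic Y) (L : Y.Modules), Rep c L →
    Rep (T.map f c) ((Scheme.Modules.pullback f).obj L)

section Core

variable {k : Type u} [Field k] {C : Scheme.{u}} {c : C ⟶ Spec (CommRingCat.of k)}
  {ε : SchemeHomOver (𝟙 (Spec (CommRingCat.of k))) c}

/-- Pull-back of rigidified line bundles is compatible with composition. -/
def pullbackAlongCompIso {T T' T'' : Scheme.{u}} {t : T ⟶ Spec (CommRingCat.of k)}
    {t' : T' ⟶ Spec (CommRingCat.of k)} {t'' : T'' ⟶ Spec (CommRingCat.of k)}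
    (M : RigidifiedLineBundle c ε t) (φ : SchemeHomOver t' t) (ψ : SchemeHomOver t'' t') :
    ((M.pullbackAlong φ).pullbackAlong ψ).L ≅ (M.pullbackAlong (postComp φ ψ)).L :=
  S25.H687.pullbackIsoOfFac _ _ _ (baseChangeSnd_comp c φ ψ) M.L

/-- Pull-back of the unit rigidified line bundle is the unit. -/
def unitPullbackAlongIso {T T' : Scheme.{u}} {t : T ⟶ Spec (CommRingCat.of k)}
    {t' : T' ⟶ Spec (CommRingCat.of k)} (ψ : SchemeHomOver t' t) :
    ((RigidifiedLineBundle.unit (c := c) (ε := ε) t).pullbackAlong ψ).L ≅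
      (RigidifiedLineBundle.unit (c := c) (ε := ε) t').L :=
  Scheme.Modules.pullbackUnitIso _

/-- A rigidified line bundle isomorphic to the unit pulls back to one isomorphic to the unit. -/
theorem pullbackAlong_iso_unit {T T' : Scheme.{u}} {t : T ⟶ Spec (CommRingCat.of k)}
    {t' : T' ⟶ Spec (CommRingCat.of k)} (M : RigidifiedLineBundle c ε t)
    (h : Nonempty (M.L ≅ (RigidifiedLineBundle.unit (c := c) (ε := ε) t).L))
    (ψ : SchemeHomOver t' t) :
    Nonempty ((M.pullbackAlong ψ).L ≅ (RigidifiedLineBundle.unit (c := c) (ε := ε) t').L) := by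
  obtain ⟨e⟩ := RigidifiedLineBundle.pullbackAlong_congr ψ h
  exact ⟨e ≪≫ unitPullbackAlongIso ψ⟩

/-- The pull-back of the Poincaré bundle along the zero section (composed with a structure
map) is trivial. -/
theorem poincare_pullbackAlong_zero {D : RelativePic0Designation k c}
    (hrep : RepresentsRelSubPic c ε (algEquivZeroCut c ε) D)
    {T : Scheme.{u}} (t : T ⟶ Spec (CommRingCat.of k)) (g : SchemeHomOver t D.toBase)
    (hg : g.1 = t ≫ D.zeroSection) :
    Nonempty ((hrep.poincare.pullbackAlong g).L ≅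
      (RigidifiedLineBundle.unit (c := c) (ε := ε) t).L) := by
  let z₀ : SchemeHomOver (𝟙 (Spec (CommRingCat.of k))) D.toBase :=
    ⟨D.zeroSection, D.zeroSection_toBase⟩
  let τ : SchemeHomOver t (𝟙 (Spec (CommRingCat.of k))) := ⟨t, Category.comp_id t⟩
  have hgz : g = postComp z₀ τ := Subtype.ext hg
  obtain ⟨e⟩ := pullbackAlong_iso_unit (hrep.poincare.pullbackAlong z₀) hrep.zero τ
  rw [hgz]
  exact ⟨(pullbackAlongCompIso hrep.poincare z₀ τ).symm ≪≫ e⟩

variable [IsAlgClosed k]

/-- **C1 for rigidified line bundles.**  Let `D` represent the degree-zero Picard functor of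
`(C, ε)`.  A rigidified line bundle on `C × (Y × Z)` (`Y`, `Z` proper, geometrically integral,
pointed) which is trivial on `C × (y₀ × Z)` and on `C × (Y × z₀)` is trivial. -/
theorem trivial_of_trivial_on_axes {D : RelativePic0Designation k c}
    (hrep : RepresentsRelSubPic c ε (algEquivZeroCut c ε) D) [IsProper D.toBase]
    {Y Z : Scheme.{u}} (y : Y ⟶ Spec (CommRingCat.of k)) (z : Z ⟶ Spec (CommRingCat.of k))
    [IsProper y] [GeometricallyIntegral y] [IsProper z] [GeometricallyIntegral z]
    (y₀ : KPt y) (z₀ : KPt z) (M : RigidifiedLineBundle c ε (prodStr y z))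
    (hZ : Nonempty ((M.pullbackAlong
        (⟨inr y z y₀, inr_prodStr y z y₀⟩ : SchemeHomOver z (prodStr y z))).L ≅
      (RigidifiedLineBundle.unit (c := c) (ε := ε) z).L))
    (hY : Nonempty ((M.pullbackAlong
        (⟨inl y z z₀, inl_prodStr y z z₀⟩ : SchemeHomOver y (prodStr y z))).L ≅
      (RigidifiedLineBundle.unit (c := c) (ε := ε) y).L)) :
    Nonempty (M.L ≅ (RigidifiedLineBundle.unit (c := c) (ε := ε) (prodStr y z)).L) := by
  let ψZ : SchemeHomOver z (prodStr y z) := ⟨inr y z y₀, inr_prodStr y z y₀⟩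
  let ψY : SchemeHomOver y (prodStr y z) := ⟨inl y z z₀, inl_prodStr y z z₀⟩
  -- `Y × Z` is geometrically integral and of finite type
  have : IsIntegral Y := GeometricallyIntegral.isIntegral_of_subsingleton y
  have : IsIntegral Z := GeometricallyIntegral.isIntegral_of_subsingleton z
  have : IsLocallyNoetherian Z := LocallyOfFiniteType.isLocallyNoetherian z
  have : IsIntegral (pullback y z) := inferInstance
  have : LocallyOfFiniteType (prodStr y z) := inferInstance
  have : IsLocallyNoetherian (pullback y z) :=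
    LocallyOfFiniteType.isLocallyNoetherian (prodStr y z)
  have : GeometricallyIntegral (prodStr y z) :=
    S25.H567.geometricallyIntegral_of_isAlgClosed (prodStr y z)
  -- the fibre at `(y₀, z₀)` is trivial
  let w₀ : SchemeHomOver (𝟙 (Spec (CommRingCat.of k))) (prodStr y z) := postComp ψZ z₀
  have h₀ : Nonempty ((M.pullbackAlong w₀).L ≅
      SheafOfModules.unit (pullback c (𝟙 (Spec (CommRingCat.of k)))).ringCatSheaf) := by
    obtain ⟨e⟩ := pullbackAlong_iso_unit (M.pullbackAlong ψZ) hZ z₀
    exact ⟨(pullbackAlongCompIso M ψZ z₀).symm ≪≫ e⟩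
  have hM : FibrewiseAlgEquivZero M :=
    S25.H687.fibrewiseAlgEquivZero_of_trivial_fibre (prodStr y z) M w₀ h₀
  -- the classifying map
  let g : SchemeHomOver (prodStr y z) D.toBase := hrep.classify (prodStr y z) M hM
  obtain ⟨eg⟩ := hrep.classify_spec (prodStr y z) M hM
  -- it is zero on the two axes
  have hgZ : inr y z y₀ ≫ g.1 = z ≫ D.zeroSection := by
    let g₁ : SchemeHomOver z D.toBase := postComp g ψZ
    let g₂ : SchemeHomOver z D.toBase :=
      ⟨z ≫ D.zeroSection, by rw [Category.assoc, D.zeroSection_toBase, Category.comp_id]⟩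
    have h12 : g₁ = g₂ := by
      apply hrep.ext_of_iso
      obtain ⟨e₂⟩ := poincare_pullbackAlong_zero hrep z g₂ rfl
      obtain ⟨e₁⟩ := RigidifiedLineBundle.pullbackAlong_congr ψZ ⟨eg⟩
      obtain ⟨e₃⟩ := hZ
      exact ⟨(pullbackAlongCompIso hrep.poincare g ψZ).symm ≪≫ e₁ ≪≫ e₃ ≪≫ e₂.symm⟩
    exact congrArg Subtype.val h12
  have hgY : inl y z z₀ ≫ g.1 = y ≫ D.zeroSection := by
    let g₁ : SchemeHomOver y D.toBase := postComp g ψY
    let g₂ : SchemeHomOver y D.toBase :=
      ⟨y ≫ D.zeroSection, by rw [Category.assoc, D.zeroSection_toBase, Category.comp_id]⟩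
    have h12 : g₁ = g₂ := by
      apply hrep.ext_of_iso
      obtain ⟨e₂⟩ := poincare_pullbackAlong_zero hrep y g₂ rfl
      obtain ⟨e₁⟩ := RigidifiedLineBundle.pullbackAlong_congr ψY ⟨eg⟩
      obtain ⟨e₃⟩ := hY
      exact ⟨(pullbackAlongCompIso hrep.poincare g ψY).symm ≪≫ e₁ ≪≫ e₃ ≪≫ e₂.symm⟩
    exact congrArg Subtype.val h12
  -- rigidity
  have hconst : g.1 = prodStr y z ≫ D.zeroSection :=
    H686.rigidity_const y z D.toBase y₀.1 y₀.2 z₀.1 z₀.2 D.zeroSection g.1 g.2 hgY hgZ
  obtain ⟨e⟩ := poincare_pullbackAlong_zero hrep (prodStr y z) g hconst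
  exact ⟨eg.symm ≪≫ e⟩

end Core

/-- **C1, the cube for a curve**, for any Picard theory with a dictionary to invertible
modules, from the existence of Jacobians (row S25). -/
theorem curveCube (hS25 : S25Statement.{u}) (T : PicTheory.{u}) (dict : ModDict T)
    (K : Type u) [Field K] [IsAlgClosed K] : Stmt.CurveCube T K := by
  intro C c _ _ _ c₀ Y Z y z _ _ _ _ y₀ z₀ N h₁ h₂ h₃
  obtain ⟨D, ⟨hrep⟩, -, hproper, -⟩ := hS25 K c c₀
  obtain ⟨L, hL, hrepL⟩ := dict.exists_rep N
  -- rigidification from the first face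
  have e₁ := (dict.rep_zero_iff _ _ (dict.rep_pullback (inr c (prodStr y z) c₀) N L hrepL)).1 h₁
  let M : RigidifiedLineBundle c c₀ (prodStr y z) := ⟨L, hL, e₁⟩
  have e₂ := (dict.rep_zero_iff _ _ (dict.rep_pullback _ N L hrepL)).1 h₂
  have e₃ := (dict.rep_zero_iff _ _ (dict.rep_pullback _ N L hrepL)).1 h₃
  have hM := trivial_of_trivial_on_axes hrep y z y₀ z₀ M e₂ e₃
  exact (dict.rep_zero_iff N L hrepL).2 hM

end

end Fermat.Agent.S26.H687
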